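import Fermat.Agent.S48.End.Defs

/-!
# S48-END / Lift, file `Conv`: the ring `M₂(R[G])` realised as matrices of size `2 |G|`; the projector attached to a representation
-/

set_option autoImplicit false

open scoped MatrixGroups

namespace Fermat.Agent.S48.End

variable {G : Type*} [Group G] [Fintype G] [DecidableEq G] {R S : Type*} [CommRing R] [CommRing S]

/-- "convolution" by `c : G → M₂(R)` -/
def conv (c : G → M2 R) : Matrix (G × Fin 2) (G × Fin 2) R :=
  Matrix.of fun x y => c (x.1 * y.1⁻¹) x.2 y.2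

/-- right translation by `s`, `(s φ)(g, i) = φ(g s, i)` -/
def trl (R : Type*) [CommRing R] (s : G) : Matrix (G × Fin 2) (G × Fin 2) R :=
  Matrix.of fun x y => if y.1 = x.1 * s ∧ y.2 = x.2 then 1 else 0

theorem Conv_trl_apply (s : G) (x y : G × Fin 2) :
    trl R s x y = if y.1 = x.1 * s ∧ y.2 = x.2 then 1 else 0 := rfl

theorem Conv_conv_apply (c : G → M2 R) (x y : G × Fin 2) :
    conv c x y = c (x.1 * y.1⁻¹) x.2 y.2 := rfl

theorem trl_one : trl R (1 : G) = 1 := by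
  ext x y
  rw [Conv_trl_apply, Matrix.one_apply, mul_one]
  by_cases h : x = y
  · subst h
    simp
  · rw [if_neg h, if_neg]
    rintro ⟨h1, h2⟩
    exact h (Prod.ext h1.symm h2.symm)

/-- entries of `trl s * M`: `(trl s * M) x y = M (x.1 * s, x.2) y` -/
theorem trl_mul_apply (s : G) (M : Matrix (G × Fin 2) (G × Fin 2) R) (x y : G × Fin 2) :
    (trl R s * M) x y = M (x.1 * s, x.2) y := by
  rw [Matrix.mul_apply, Finset.sum_eq_single (x.1 * s, x.2)]
  · rw [Conv_trl_apply, if_pos ⟨rfl, rfl⟩, one_mul]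
  · intro z _ hz
    rw [Conv_trl_apply, if_neg, zero_mul]
    rintro ⟨h1, h2⟩
    exact hz (Prod.ext h1 h2)
  · intro h
    exact absurd (Finset.mem_univ _) h

theorem trl_mul (s t : G) : trl R (s * t) = trl R s * trl R t := by
  ext x y
  rw [trl_mul_apply, Conv_trl_apply, Conv_trl_apply, mul_assoc]

/-- entries of `M * trl s`: `(M * trl s) x y = M x (y.1 * s⁻¹, y.2)` -/
theorem mul_trl_apply (s : G) (M : Matrix (G × Fin 2) (G × Fin 2) R) (x y : G × Fin 2) :
    (M * trl R s) x y = M x (y.1 * s⁻¹, y.2) := by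
  rw [Matrix.mul_apply, Finset.sum_eq_single (y.1 * s⁻¹, y.2)]
  · rw [Conv_trl_apply, if_pos ⟨by simp, rfl⟩, mul_one]
  · intro z _ hz
    rw [Conv_trl_apply, if_neg, mul_zero]
    rintro ⟨h1, h2⟩
    exact hz (Prod.ext (by rw [h1]; simp) h2.symm)
  · intro h
    exact absurd (Finset.mem_univ _) h

theorem trl_mul_conv (s : G) (c : G → M2 R) : trl R s * conv c = conv c * trl R s := by
  ext x y
  rw [trl_mul_apply, mul_trl_apply, Conv_conv_apply, Conv_conv_apply]
  simp [mul_assoc]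

theorem conv_map (f : R →+* S) (c : G → M2 R) : (conv c).map f = conv fun g => (c g).map f := by
  ext x y
  rfl

theorem trl_map (f : R →+* S) (s : G) : (trl R s).map f = trl S s := by
  ext x y
  rw [Matrix.map_apply, Conv_trl_apply, Conv_trl_apply]
  split_ifs <;> simp

variable {k : Type*} [Field k]

/-- the function `g ↦ |G|⁻¹ ρ(g)` -/
noncomputable def projFun (ρ : G →* GL (Fin 2) k) (g : G) : M2 k :=
  ((Fintype.card G : k))⁻¹ • ((ρ g : GL (Fin 2) k) : M2 k)

/-- [`(p²)_{(g,i),(h,j)} = |G|⁻² ∑_{u,l} ρ(g u⁻¹)_{il} ρ(u h⁻¹)_{lj} = |G|⁻² ∑_u ρ(g h⁻¹)_{ij} = |G|⁻¹ ρ(g h⁻¹)_{ij}`.] -/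
theorem conv_projFun_idem (ρ : G →* GL (Fin 2) k) (hG : (Fintype.card G : k) ≠ 0) :
    conv (projFun ρ) * conv (projFun ρ) = conv (projFun ρ) := by
  ext x y
  rw [Matrix.mul_apply, Fintype.sum_prod_type]
  have h1 : ∀ u : G, ∑ l : Fin 2, conv (projFun ρ) x (u, l) * conv (projFun ρ) (u, l) y =
      ((Fintype.card G : k))⁻¹ * ((Fintype.card G : k))⁻¹ *
        ((ρ (x.1 * y.1⁻¹) : GL (Fin 2) k) : M2 k) x.2 y.2 := by
    intro u
    have h2 : ((ρ (x.1 * y.1⁻¹) : GL (Fin 2) k) : M2 k) =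
        ((ρ (x.1 * u⁻¹) : GL (Fin 2) k) : M2 k) * ((ρ (u * y.1⁻¹) : GL (Fin 2) k) : M2 k) := by
      have h3 : x.1 * y.1⁻¹ = (x.1 * u⁻¹) * (u * y.1⁻¹) := by group
      rw [h3, map_mul, Units.val_mul]
    rw [h2, Matrix.mul_apply, Finset.mul_sum]
    refine Finset.sum_congr rfl fun l _ => ?_
    simp only [Conv_conv_apply, projFun, Matrix.smul_apply, smul_eq_mul]
    ring
  rw [Finset.sum_congr rfl fun u _ => h1 u, Finset.sum_const, Finset.card_univ, nsmul_eq_mul,
    Conv_conv_apply, projFun, Matrix.smul_apply, smul_eq_mul]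
  field_simp

/-- [`tr (trl s * p) = ∑_{g,i} |G|⁻¹ ρ(g s g⁻¹)_{ii} = |G|⁻¹ ∑_g tr ρ(g s g⁻¹) = tr ρ(s)` (`Matrix.trace_mul_comm`).] -/
theorem trace_trl_mul_conv_projFun (ρ : G →* GL (Fin 2) k) (hG : (Fintype.card G : k) ≠ 0) (s : G) :
    Matrix.trace (trl k s * conv (projFun ρ)) = Matrix.trace ((ρ s : GL (Fin 2) k) : M2 k) := by
  rw [Matrix.trace, Fintype.sum_prod_type]
  have h1 : ∀ g : G, ∑ i : Fin 2, Matrix.diag (trl k s * conv (projFun ρ)) (g, i) =
      ((Fintype.card G : k))⁻¹ * Matrix.trace ((ρ s : GL (Fin 2) k) : M2 k) := by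
    intro g
    have h2 : Matrix.trace ((ρ s : GL (Fin 2) k) : M2 k) =
        Matrix.trace ((ρ (g * s * g⁻¹) : GL (Fin 2) k) : M2 k) := by
      rw [map_mul, map_mul, Units.val_mul, Units.val_mul, Matrix.trace_mul_comm, ← mul_assoc,
        ← Units.val_mul, ← map_mul, inv_mul_cancel, map_one, Units.val_one, one_mul]
    rw [h2, Matrix.trace, Finset.mul_sum]
    refine Finset.sum_congr rfl fun i _ => ?_
    rw [Matrix.diag_apply, trl_mul_apply, Conv_conv_apply, projFun, Matrix.smul_apply, smul_eq_mul,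
      Matrix.diag_apply]
  rw [Finset.sum_congr rfl fun g _ => h1 g, Finset.sum_const, Finset.card_univ, nsmul_eq_mul]
  field_simp

end Fermat.Agent.S48.End
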