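import Fermat.Agent.S48.End.Lift.Poly

/-!
# S48-END / Lift, file `Idem`: lifting idempotent matrices from the residue field to `Λ`, as polynomials in a given lift
-/

set_option autoImplicit false

open Polynomial

namespace Fermat.Agent.S48.End

/-- [induction on `F` (`Polynomial.induction_on'`): for a monomial `X^m`, `p^m = p` if `m ≥ 1`.] -/
theorem aeval_idem {k A : Type*} [Field k] [Ring A] [Algebra k A] (p : A) (hp : p * p = p) (F : k[X]) :
    aeval p F = F.eval 0 • (1 - p) + F.eval 1 • p := by
  induction F using Polynomial.induction_on' with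
  | add F G hF hG =>
    rw [map_add, hF, hG, eval_add, eval_add, add_smul, add_smul]
    abel
  | monomial n a =>
    rw [aeval_monomial, eval_monomial, eval_monomial, one_pow, mul_one]
    cases n with
    | zero =>
      rw [pow_zero, pow_zero, mul_one, mul_one, ← smul_add, sub_add_cancel,
        Algebra.algebraMap_eq_smul_one]
    | succ n =>
      have hp' : IsIdempotentElem p := hp
      rw [hp'.pow_succ_eq, zero_pow (Nat.succ_ne_zero n), mul_zero, zero_smul, zero_add,
        ← Algebra.smul_def]

variable {Ω : Type*} [Field Ω] [IsAlgClosed Ω] (Λ : ValuationSubring Ω)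

/-- **Lifting idempotents.**
[`π := IsLocalRing.residue Λ`, `n := Fintype.card ι > 0`, `ν := x * x - x`, `ν.map π = 0`.  `C := ν.charpoly`, `C.map π = (ν.map π).charpoly = X^n` (`Matrix.charpoly_map`, charpoly of `0`).
`P := C.comp (X^2 - X)`: monic (`Polynomial.Monic.comp`), `P.map π = (X^2 - X)^n` (`Polynomial.map_comp`), `aeval x P = aeval ν C = 0` (`Polynomial.aeval_comp`, `Matrix.aeval_self_charpoly`).
`Q` from `exists_idem_poly`: `aeval x (Q * Q - Q) = 0`.  Reduction: `(aeval x Q).map π = aeval (x.map π) (Q.map π)` (`π.mapMatrix` is a ring hom: `Polynomial.hom_eval₂` / `Polynomial.map_aeval_eq_aeval_map`) `= x.map π` by `aeval_idem`.] -/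
theorem exists_idem_lift {ι : Type*} [Fintype ι] [DecidableEq ι] [Nonempty ι] (x : Matrix ι ι Λ)
    (hx : x.map (IsLocalRing.residue Λ) * x.map (IsLocalRing.residue Λ) =
      x.map (IsLocalRing.residue Λ)) :
    ∃ Q : Λ[X], aeval x Q * aeval x Q = aeval x Q ∧
      (aeval x Q).map (IsLocalRing.residue Λ) = x.map (IsLocalRing.residue Λ) := by
  set π := IsLocalRing.residue Λ with hπ
  have hn : 0 < Fintype.card ι := Fintype.card_pos
  set ν : Matrix ι ι Λ := x * x - x with hν
  have hν0 : ν.map π = 0 := by
    have e : ν.map π = π.mapMatrix ν := rfl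
    rw [e, hν, map_sub, map_mul]
    show x.map π * x.map π - x.map π = 0
    rw [hx, sub_self]
  have hC : ν.charpoly.map π = X ^ Fintype.card ι := by
    rw [← Matrix.charpoly_map, hν0, Matrix.charpoly_zero]
  have hq : (X ^ 2 - X : Λ[X]).Monic := by
    apply monic_X_pow_sub
    rw [degree_X]
    norm_num
  have hqd : (X ^ 2 - X : Λ[X]).natDegree ≠ 0 := by
    rw [natDegree_sub_eq_left_of_natDegree_lt (by rw [natDegree_X, natDegree_X_pow]; norm_num),
      natDegree_X_pow]
    norm_num
  have hP : (ν.charpoly.comp (X ^ 2 - X)).Monic := (Matrix.charpoly_monic ν).comp hq hqd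
  have hred : (ν.charpoly.comp (X ^ 2 - X)).map π = (X ^ 2 - X) ^ Fintype.card ι := by
    rw [Polynomial.map_comp, hC, Polynomial.map_sub, Polynomial.map_pow, Polynomial.map_X,
      X_pow_comp]
  have hzero : aeval x (ν.charpoly.comp (X ^ 2 - X)) = 0 := by
    rw [aeval_comp]
    have : aeval x (X ^ 2 - X : Λ[X]) = ν := by
      rw [map_sub, map_pow, aeval_X, hν, sq]
    rw [this, Matrix.aeval_self_charpoly]
  obtain ⟨Q, ⟨R, hR⟩, h0, h1⟩ := exists_idem_poly Λ _ hP hn hred
  refine ⟨Q, ?_, ?_⟩
  · have := congrArg (aeval x) hR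
    rw [map_mul, hzero, zero_mul, map_sub, map_mul, sub_eq_zero] at this
    exact this
  · have hcomp : (algebraMap (IsLocalRing.ResidueField Λ)
        (Matrix ι ι (IsLocalRing.ResidueField Λ))).comp π =
        π.mapMatrix.comp (algebraMap Λ (Matrix ι ι Λ)) := by
      ext r i j
      simp [Matrix.algebraMap_matrix_apply, apply_ite π]
    have e1 : (aeval x Q).map π = aeval (x.map π) (Q.map π) :=
      Polynomial.map_aeval_eq_aeval_map (ψ := π.mapMatrix) hcomp Q x
    rw [e1, aeval_idem (x.map π) hx, h0, h1, zero_smul, one_smul, zero_add]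

end Fermat.Agent.S48.End
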