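import Fermat.Agent.S48.End.Defs

/-!
# S48-END / Lift, file `Rep`: the representation on the image of an equivariant idempotent (over a field of characteristic `0`)
-/

set_option autoImplicit false

open scoped MatrixGroups

namespace Fermat.Agent.S48.End

variable {Ω : Type*} [Field Ω] {ι : Type*} [Fintype ι] [DecidableEq ι]

/-- the trace of an idempotent matrix is its rank.  [`V := LinearMap.range (Matrix.toLin' e)`; `LinearMap.IsProj.trace`; `Matrix.trace_toLin'_eq` / `LinearMap.trace_eq_matrix_trace`; `finrank V ≤ card ι`.] -/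
theorem exists_trace_idem (e : Matrix ι ι Ω) (he : e * e = e) :
    ∃ r : ℕ, r ≤ Fintype.card ι ∧ e.trace = (r : Ω) ∧
      Module.finrank Ω (LinearMap.range (Matrix.toLin' e)) = r := by
  have hproj : LinearMap.IsProj (LinearMap.range (Matrix.toLin' e)) (Matrix.toLin' e) := by
    refine ⟨fun x => LinearMap.mem_range_self _ x, ?_⟩
    rintro _ ⟨y, rfl⟩
    rw [← LinearMap.comp_apply, ← Matrix.toLin'_mul, he]
  refine ⟨Module.finrank Ω (LinearMap.range (Matrix.toLin' e)), ?_, ?_, rfl⟩
  · have := Submodule.finrank_le (LinearMap.range (Matrix.toLin' e))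
    rwa [Module.finrank_fintype_fun_eq_card] at this
  · rw [← Matrix.trace_toLin'_eq, hproj.trace]

/-- [`V := range (toLin' e)`, stable under `toLin' (T s)` (`hcomm`), `dim V = 2`; basis `b : Basis (Fin 2) Ω V`; `ρ s :=` matrix of `T s |_V` (invertible: inverse `T s⁻¹ |_V`).
Trace: `tr (T s |_V) = tr (T s * e)`: `T s * e` maps everything into `V`, is `T s` on `V`; e.g. `LinearMap.trace` of `f := toLin' (T s * e)` with `range f ≤ V`: `LinearMap.trace_restrict_eq_of_forall_mem`
(`trace (f.restrict hV) = trace f` if `f` maps into `V`), and `f.restrict = (T s)|_V` because `e v = v` on `V`.] -/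
theorem exists_rep_of_idem {G : Type*} [Group G] (T : G →* Matrix ι ι Ω) (e : Matrix ι ι Ω)
    (he : e * e = e) (hcomm : ∀ s, T s * e = e * T s)
    (hrank : Module.finrank Ω (LinearMap.range (Matrix.toLin' e)) = 2) :
    ∃ ρ : G →* GL (Fin 2) Ω, ∀ s, Matrix.trace ((ρ s : GL (Fin 2) Ω) : M2 Ω) = Matrix.trace (T s * e) := by
  set V := LinearMap.range (Matrix.toLin' e) with hV
  have hid : ∀ v ∈ V, Matrix.toLin' e v = v := by
    rintro _ ⟨y, rfl⟩
    rw [← LinearMap.comp_apply, ← Matrix.toLin'_mul, he]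
  have hst : ∀ s, ∀ v ∈ V, Matrix.toLin' (T s) v ∈ V := by
    rintro s _ ⟨y, rfl⟩
    rw [← LinearMap.comp_apply, ← Matrix.toLin'_mul, hcomm s, Matrix.toLin'_mul,
      LinearMap.comp_apply]
    exact LinearMap.mem_range_self _ _
  let R : G →* Module.End Ω V :=
    { toFun := fun s => (Matrix.toLin' (T s)).restrict (hst s)
      map_one' := by
        ext v
        simp
      map_mul' := fun s t => by
        apply LinearMap.ext
        intro v
        apply Subtype.ext
        simp [Matrix.toLin'_mul] }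
  let b : Module.Basis (Fin 2) Ω V := Module.finBasisOfFinrankEq Ω V hrank
  refine ⟨(Units.map ((LinearMap.toMatrixAlgEquiv b : Module.End Ω V ≃ₐ[Ω] M2 Ω) :
    Module.End Ω V →* M2 Ω)).comp R.toHomUnits, fun s => ?_⟩
  have h1 : (((Units.map ((LinearMap.toMatrixAlgEquiv b : Module.End Ω V ≃ₐ[Ω] M2 Ω) :
      Module.End Ω V →* M2 Ω)).comp R.toHomUnits s : GL (Fin 2) Ω) : M2 Ω) =
      LinearMap.toMatrix b b (R s) := rfl
  rw [h1, ← LinearMap.trace_eq_matrix_trace, ← Matrix.trace_toLin'_eq]
  have hmem : ∀ x, Matrix.toLin' (T s * e) x ∈ V := fun x => by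
    rw [hcomm s, Matrix.toLin'_mul, LinearMap.comp_apply]
    exact LinearMap.mem_range_self _ _
  rw [← LinearMap.trace_restrict_eq_of_forall_mem V (Matrix.toLin' (T s * e)) hmem]
  congr 1
  apply LinearMap.ext
  intro v
  apply Subtype.ext
  show Matrix.toLin' (T s) v = Matrix.toLin' (T s * e) v
  rw [Matrix.toLin'_mul, LinearMap.comp_apply, hid v v.2]

end Fermat.Agent.S48.End
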