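import Fermat.Agent.S48.End.Lift.Idem
import Fermat.Agent.S48.End.Lift.Conv
import Fermat.Agent.S48.End.Lift.Rep
import Fermat.Agent.S48.End.Res
import Fermat.Agent.S48.End.Fin

/-!
# S48-END / Lift, file `Main`: lifting a representation of a finite group of order prime to `ℓ` from `kk Λ` to `ℚ̄`
-/

set_option autoImplicit false

open scoped MatrixGroups

namespace Fermat.Agent.S48.End

theorem LiftMain_commute_aeval {R A : Type*} [CommRing R] [Ring A] [Algebra R A] {t x : A}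
    (h : Commute t x) (Q : Polynomial R) : Commute t (Polynomial.aeval x Q) := by
  induction Q using Polynomial.induction_on' with
  | add p q hp hq =>
    rw [map_add]
    exact hp.add_right hq
  | monomial n a =>
    rw [Polynomial.aeval_monomial]
    exact (Algebra.commute_algebraMap_right a t).mul_right (h.pow_right n)

theorem LiftMain_trace_map {R S ι : Type*} [CommRing R] [CommRing S] [Fintype ι] (f : R →+* S)
    (A : Matrix ι ι R) : (A.map f).trace = f A.trace := by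
  simp [Matrix.trace, map_sum]

/-- **Lifting.**
[classical, `Fintype G`.  `π := IsLocalRing.residue Λ`.  `(card G : kk Λ) ≠ 0` (`charP_kk`, `0 < card G < ℓ`).  Choose `c : G → M2 Λ` with `(c g).map π = projFun ρb g` (entrywise, `IsLocalRing.residue_surjective`).
`x := conv c`, `x.map π = conv (projFun ρb)` (`conv_map`) is idempotent (`conv_projFun_idem`).  `Q` from `exists_idem_lift`, `eΛ := aeval x Q`, `e := eΛ.map Λ.subtype`.
`trl Λ s` commutes with `x` (`trl_mul_conv`), hence with `eΛ` (induction on `Q`), so `trl Qb s` commutes with `e` (`trl_map`).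
Rank: `e.trace = r`, `r ≤ 2 card G < ℓ` (`exists_trace_idem`); `π (eΛ.trace) = (conv (projFun ρb)).trace = tr ρb(1) = 2` (`trace_trl_mul_conv_projFun` at `s = 1`, `trl_one`), so `(r : kk Λ) = 2`, `r = 2`.
`ρ` from `exists_rep_of_idem` with `T s = trl Qb s`.  `tr ρ(s) = (trl Qb s * e).trace =` the image of `(trl Λ s * eΛ).trace ∈ Λ`, whose residue is `(trl k s * conv (projFun ρb)).trace = tr ρb(s)`.
Determinant: `two_mul_det` for `ρ s` and `ρb s`, `ρ s * ρ s = ρ (s * s)`, `2` is a unit of `Λ`.] -/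
theorem exists_lift (Λ : ValuationSubring Qb) {ℓ : ℕ} (hℓ : ℓ.Prime) (hΛ : Λ.LiesOverPrime ℓ)
    {G : Type} [Group G] [Finite G] (hG : 2 * Nat.card G < ℓ) (ρb : G →* GL (Fin 2) (kk Λ)) :
    ∃ ρ : G →* GL (Fin 2) Qb, ∀ g,
      (Matrix.trace ((ρ g : GL (Fin 2) Qb) : M2 Qb) ∈ Λ ∧
        res Λ (Matrix.trace ((ρ g : GL (Fin 2) Qb) : M2 Qb)) =
          Matrix.trace ((ρb g : GL (Fin 2) (kk Λ)) : M2 (kk Λ))) ∧
      (Matrix.det ((ρ g : GL (Fin 2) Qb) : M2 Qb) ∈ Λ ∧
        res Λ (Matrix.det ((ρ g : GL (Fin 2) Qb) : M2 Qb)) =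
          Matrix.det ((ρb g : GL (Fin 2) (kk Λ)) : M2 (kk Λ))) := by
  classical
  have := Fintype.ofFinite G
  have hchar : CharP (kk Λ) ℓ := charP_kk hℓ hΛ
  have hcard : Nat.card G = Fintype.card G := Nat.card_eq_fintype_card
  have hcpos : 0 < Fintype.card G := Fintype.card_pos
  rw [hcard] at hG
  have hGk : (Fintype.card G : kk Λ) ≠ 0 := by
    rw [Ne, CharP.cast_eq_zero_iff (kk Λ) ℓ]
    intro h
    have := Nat.le_of_dvd hcpos h
    omega
  have h2k : (2 : kk Λ) ≠ 0 := by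
    have h : ((2 : ℕ) : kk Λ) ≠ 0 := by
      rw [Ne, CharP.cast_eq_zero_iff (kk Λ) ℓ]
      intro h
      have := Nat.le_of_dvd (by norm_num) h
      omega
    exact_mod_cast h
  -- a lift of the projector
  have hc : ∀ g : G, ∃ c : M2 Λ, c.map (IsLocalRing.residue Λ) = projFun ρb g := by
    intro g
    choose f hf using fun i j => IsLocalRing.residue_surjective (R := Λ) (projFun ρb g i j)
    exact ⟨Matrix.of f, by ext i j; simp [hf]⟩
  choose c hc using hc
  have hxπ : (conv c).map (IsLocalRing.residue Λ) = conv (projFun ρb) := by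
    rw [conv_map]
    congr 1
    funext g
    exact hc g
  have hidem : (conv c).map (IsLocalRing.residue Λ) * (conv c).map (IsLocalRing.residue Λ) =
      (conv c).map (IsLocalRing.residue Λ) := by
    rw [hxπ]
    exact conv_projFun_idem ρb hGk
  obtain ⟨Q, hQ1, hQ2⟩ := exists_idem_lift Λ (conv c) hidem
  obtain ⟨eΛ, heΛ⟩ : ∃ eΛ, eΛ = Polynomial.aeval (conv c) Q := ⟨_, rfl⟩
  rw [← heΛ] at hQ1 hQ2
  have hcommΛ : ∀ s : G, trl Λ s * eΛ = eΛ * trl Λ s := by
    intro s
    rw [heΛ]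
    exact LiftMain_commute_aeval (trl_mul_conv s c) Q
  obtain ⟨e, he⟩ : ∃ e, e = eΛ.map Λ.subtype := ⟨_, rfl⟩
  have hee : e * e = e := by
    rw [he, ← Matrix.map_mul, hQ1]
  have hcomm : ∀ s : G, trl Qb s * e = e * trl Qb s := by
    intro s
    rw [he, ← trl_map Λ.subtype s, ← Matrix.map_mul, ← Matrix.map_mul, hcommΛ]
  -- the traces
  have htrπ : ∀ s : G, IsLocalRing.residue Λ (trl Λ s * eΛ).trace =
      Matrix.trace ((ρb s : GL (Fin 2) (kk Λ)) : M2 (kk Λ)) := by
    intro s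
    rw [← LiftMain_trace_map, Matrix.map_mul, trl_map, hQ2, hxπ,
      trace_trl_mul_conv_projFun ρb hGk s]
  have htrQ : ∀ s : G, (trl Qb s * e).trace = (((trl Λ s * eΛ).trace : Λ) : Qb) := by
    intro s
    rw [he, ← trl_map Λ.subtype s, ← Matrix.map_mul, LiftMain_trace_map]
    rfl
  -- the rank
  obtain ⟨r, hr1, hr2, hr3⟩ := exists_trace_idem e hee
  rw [Fintype.card_prod, Fintype.card_fin] at hr1
  have hr : r = 2 := by
    have h1 : (((trl Λ (1 : G) * eΛ).trace : Λ) : Qb) = (r : Qb) := by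
      rw [← htrQ, trl_one, one_mul, hr2]
    have h2 : ((trl Λ (1 : G) * eΛ).trace : Λ) = (r : Λ) := by
      apply Subtype.ext
      rw [h1]
      simp
    have h3 := htrπ 1
    rw [h2, map_natCast, map_one, Units.val_one, Matrix.trace_one, Fintype.card_fin] at h3
    have h4 := (CharP.natCast_eq_natCast (kk Λ) ℓ).1 h3
    exact Nat.ModEq.eq_of_lt_of_lt h4 (by omega) (by omega)
  let T : G →* Matrix (G × Fin 2) (G × Fin 2) Qb :=
    { toFun := trl Qb
      map_one' := trl_one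
      map_mul' := trl_mul }
  obtain ⟨ρ, hρ⟩ := exists_rep_of_idem T e hee hcomm (hr3.trans hr)
  have htr : ∀ s : G, Matrix.trace ((ρ s : GL (Fin 2) Qb) : M2 Qb) =
      (((trl Λ s * eΛ).trace : Λ) : Qb) := fun s => (hρ s).trans (htrQ s)
  refine ⟨ρ, fun g => ⟨⟨?_, ?_⟩, ?_⟩⟩
  · rw [htr g]
    exact ((trl Λ g * eΛ).trace : Λ).2
  · rw [htr g, res_of_mem Λ ((trl Λ g * eΛ).trace : Λ).2]
    exact htrπ g
  · have hpow : Matrix.det ((ρ g : GL (Fin 2) Qb) : M2 Qb) ^ Fintype.card G = 1 := by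
      rw [← Matrix.det_pow, ← Units.val_pow_eq_pow_val, ← map_pow, pow_card_eq_one, map_one,
        Units.val_one, Matrix.det_one]
    have hmem : Matrix.det ((ρ g : GL (Fin 2) Qb) : M2 Qb) ∈ Λ :=
      (mem_of_pow_eq_one Λ hcpos hpow).1
    refine ⟨hmem, ?_⟩
    rw [res_of_mem Λ hmem]
    have e1 : (2 : Λ) * ⟨Matrix.det ((ρ g : GL (Fin 2) Qb) : M2 Qb), hmem⟩ =
        (trl Λ g * eΛ).trace ^ 2 - (trl Λ (g * g) * eΛ).trace := by
      apply Subtype.ext
      show (2 : Qb) * Matrix.det ((ρ g : GL (Fin 2) Qb) : M2 Qb) =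
        (((trl Λ g * eΛ).trace : Λ) : Qb) ^ 2 - (((trl Λ (g * g) * eΛ).trace : Λ) : Qb)
      rw [two_mul_det, ← htr g, ← htr (g * g), map_mul, Units.val_mul]
    have e2 := congrArg (IsLocalRing.residue Λ) e1
    rw [map_mul, map_sub, map_pow, htrπ, htrπ, map_ofNat] at e2
    apply mul_left_cancel₀ h2k
    rw [e2, two_mul_det, map_mul, Units.val_mul]

end Fermat.Agent.S48.End
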