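import Mathlib

/-!
# S48-END / Lift, file `Poly`: polynomials over a valuation ring `Λ` of an algebraically closed field (a henselian ring, by hand)
-/

set_option autoImplicit false

open Polynomial

namespace Fermat.Agent.S48.End

variable {Ω : Type*} [Field Ω] [IsAlgClosed Ω] (Λ : ValuationSubring Ω)

/-- auxiliary: a nonconstant monic polynomial over `Λ` has a root in `Λ`. -/
theorem Poly_exists_root (P : Λ[X]) (hP : P.Monic) (hd : P.natDegree ≠ 0) :
    ∃ r : Λ, P.IsRoot r := by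
  have hdeg : (P.map (algebraMap Λ Ω)).degree ≠ 0 := by
    rw [hP.degree_map]
    intro h
    exact hd (natDegree_eq_of_degree_eq_some h)
  obtain ⟨a, ha⟩ := IsAlgClosed.exists_root _ hdeg
  have hint : IsIntegral Λ a := ⟨P, hP, by rwa [IsRoot.def, eval_map] at ha⟩
  obtain ⟨r, rfl⟩ := IsIntegrallyClosed.isIntegral_iff.1 hint
  refine ⟨r, ?_⟩
  rw [IsRoot.def, eval_map, eval₂_at_apply] at ha
  exact (FaithfulSMul.algebraMap_injective Λ Ω) (by rw [ha, map_zero])

/-- a monic polynomial over `Λ` splits over `Λ`.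
[`P.map Λ.subtype` splits over `Ω` (`IsAlgClosed.splits`, `Polynomial.Splits.eq_prod_roots` / `eq_prod_roots_of_monic_of_splits_id`); each root is integral over `Λ`, hence in `Λ`
(`IsIntegrallyClosed`, `ValuationSubring` is integrally closed in its fraction field `Ω`); `Polynomial.map_injective`.  Or: induction on the degree, dividing by `X - C r`.] -/
theorem exists_roots (P : Λ[X]) (hP : P.Monic) :
    ∃ s : Multiset Λ, P = (s.map fun r => X - C r).prod := by
  induction hn : P.natDegree generalizing P with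
  | zero => exact ⟨0, by simp [hP.natDegree_eq_zero.1 hn]⟩
  | succ n ih =>
    obtain ⟨r, hr⟩ := Poly_exists_root Λ P hP (by omega)
    obtain ⟨Q, hQ⟩ := dvd_iff_isRoot.2 hr
    have hQm : Q.Monic := (monic_X_sub_C r).of_mul_monic_left (hQ ▸ hP)
    have hQd : Q.natDegree = n := by
      have := congrArg natDegree hQ
      rw [(monic_X_sub_C r).natDegree_mul hQm, natDegree_X_sub_C, hn] at this
      omega
    obtain ⟨s, hs⟩ := ih Q hQm hQd
    exact ⟨r ::ₘ s, by rw [Multiset.map_cons, Multiset.prod_cons, ← hs, hQ]⟩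

/-- auxiliary -/
theorem Poly_isCoprime_prod {R : Type*} [CommRing R] (s : Multiset R) (q : R)
    (h : ∀ p ∈ s, IsCoprime p q) : IsCoprime s.prod q := by
  induction s using Multiset.induction_on with
  | empty => simpa using isCoprime_one_left
  | cons a s ih =>
    rw [Multiset.prod_cons]
    exact IsCoprime.mul_left (h a (Multiset.mem_cons_self a s))
      (ih fun p hp => h p (Multiset.mem_cons_of_mem hp))

/-- auxiliary -/
theorem Poly_eval_prod_ne_zero (t : Multiset Λ) (c : IsLocalRing.ResidueField Λ)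
    (h : ∀ r ∈ t, IsLocalRing.residue Λ r ≠ c) :
    (((t.map fun r => X - C r).prod).map (IsLocalRing.residue Λ)).eval c ≠ 0 := by
  induction t using Multiset.induction_on with
  | empty => simp
  | cons a t ih =>
    rw [Multiset.map_cons, Multiset.prod_cons, Polynomial.map_mul, eval_mul]
    refine mul_ne_zero ?_ (ih fun r hr => h r (Multiset.mem_cons_of_mem hr))
    rw [Polynomial.map_sub, Polynomial.map_X, Polynomial.map_C, eval_sub, eval_X, eval_C,
      sub_ne_zero]
    exact (h a (Multiset.mem_cons_self a t)).symm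

/-- **Hensel for `(X² - X)^n`.**
[`P = ∏_{r ∈ s} (X - r)` (`exists_roots`).  Each `r ∈ s` satisfies `P̄(r̄) = 0`, so `r̄ = 0` or `r̄ = 1`.  `s₀ := s.filter (residue r = 0)`, `s₁ :=` the rest, `P₀, P₁` the products: `P = P₀ P₁`.
For `r ∈ s₀`, `r' ∈ s₁`: `r - r'` is a unit of `Λ` (its residue is `-1`), so `IsCoprime (X - C r) (X - C r')` (`Polynomial.isCoprime_X_sub_C_of_isUnit_sub`), so `IsCoprime P₀ P₁`
(`IsCoprime.prod_left/right`, or `Multiset` induction): `U P₀ + V P₁ = 1`.  `Q := U P₀`: `Q² - Q = - U V P₀ P₁`.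
`P̄₁(0) = ∏ (0 - 1) ≠ 0` and `P̄(0) = 0` (`n > 0`), so `P̄₀(0) = 0`, `Q̄(0) = 0`.  `P̄₀(1) = ∏ (1 - 0) ≠ 0` and `P̄(1) = 0`, so `P̄₁(1) = 0`, `Q̄(1) = 1 - V̄(1) P̄₁(1) = 1`.] -/
theorem exists_idem_poly (P : Λ[X]) (hP : P.Monic) {n : ℕ} (hn : 0 < n)
    (hred : P.map (IsLocalRing.residue Λ) = (X ^ 2 - X) ^ n) :
    ∃ Q : Λ[X], P ∣ Q * Q - Q ∧ (Q.map (IsLocalRing.residue Λ)).eval 0 = 0 ∧
      (Q.map (IsLocalRing.residue Λ)).eval 1 = 1 := by
  classical
  set π := IsLocalRing.residue Λ with hπ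
  obtain ⟨s, hs⟩ := exists_roots Λ P hP
  have hres : ∀ r ∈ s, π r = 0 ∨ π r = 1 := by
    intro r hr
    have h1 : P.eval r = 0 := by
      rw [hs, eval_multiset_prod]
      apply Multiset.prod_eq_zero
      rw [Multiset.mem_map]
      refine ⟨X - C r, Multiset.mem_map.2 ⟨r, hr, rfl⟩, by simp⟩
    have h2 : (P.map π).eval (π r) = 0 := by rw [eval_map, eval₂_at_apply, h1, map_zero]
    rw [hred, eval_pow, eval_sub, eval_pow, eval_X] at h2
    have h3 := pow_eq_zero_iff (Nat.pos_iff_ne_zero.1 hn) |>.1 h2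
    have h4 : π r * (π r - 1) = 0 := by rw [← h3]; ring
    rcases mul_eq_zero.1 h4 with h | h
    · exact Or.inl h
    · exact Or.inr (sub_eq_zero.1 h)
  set s₀ := s.filter (fun r => π r = 0) with hs₀
  set s₁ := s.filter (fun r => ¬ π r = 0) with hs₁
  set P₀ := (s₀.map fun r => X - C r).prod with hP₀
  set P₁ := (s₁.map fun r => X - C r).prod with hP₁
  have hPP : P = P₀ * P₁ := by
    rw [hP₀, hP₁, ← Multiset.prod_add, ← Multiset.map_add, hs₀, hs₁, Multiset.filter_add_not]
    exact hs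
  have h0 : ∀ r ∈ s₀, π r = 0 := fun r hr => (Multiset.mem_filter.1 hr).2
  have h1 : ∀ r ∈ s₁, π r = 1 := fun r hr =>
    (hres r (Multiset.mem_filter.1 hr).1).resolve_left (Multiset.mem_filter.1 hr).2
  have hcop : IsCoprime P₀ P₁ := by
    apply Poly_isCoprime_prod
    intro p hp
    obtain ⟨r, hr, rfl⟩ := Multiset.mem_map.1 hp
    apply IsCoprime.symm
    apply Poly_isCoprime_prod
    intro p' hp'
    obtain ⟨r', hr', rfl⟩ := Multiset.mem_map.1 hp'
    apply isCoprime_X_sub_C_of_isUnit_sub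
    rw [← IsLocalRing.notMem_maximalIdeal, ← IsLocalRing.residue_eq_zero_iff, map_sub]
    show ¬ (π r' - π r = 0)
    rw [h0 r hr, h1 r' hr', sub_zero]
    exact one_ne_zero
  obtain ⟨U, V, hUV⟩ := hcop
  have e0 : (P₁.map π).eval 0 ≠ 0 := Poly_eval_prod_ne_zero Λ s₁ 0 (fun r hr => by
    show π r ≠ 0
    rw [h1 r hr]; exact one_ne_zero)
  have e1 : (P₀.map π).eval 1 ≠ 0 := Poly_eval_prod_ne_zero Λ s₀ 1 (fun r hr => by
    show π r ≠ 1
    rw [h0 r hr]; exact zero_ne_one)
  have z0 : (P₀.map π).eval 0 = 0 := by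
    have : (P.map π).eval 0 = 0 := by
      rw [hred]; simp [Nat.pos_iff_ne_zero.1 hn]
    rw [hPP, Polynomial.map_mul, eval_mul] at this
    exact (mul_eq_zero.1 this).resolve_right e0
  have z1 : (P₁.map π).eval 1 = 0 := by
    have : (P.map π).eval 1 = 0 := by
      rw [hred]; simp [Nat.pos_iff_ne_zero.1 hn]
    rw [hPP, Polynomial.map_mul, eval_mul] at this
    exact (mul_eq_zero.1 this).resolve_left e1
  refine ⟨U * P₀, ⟨-(U * V), ?_⟩, ?_, ?_⟩
  · rw [hPP]
    have : U * P₀ = 1 - V * P₁ := by rw [← hUV]; ring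
    calc U * P₀ * (U * P₀) - U * P₀ = U * P₀ * (U * P₀ - 1) := by ring
      _ = U * P₀ * (1 - V * P₁ - 1) := by rw [this]
      _ = P₀ * P₁ * -(U * V) := by ring
  · rw [Polynomial.map_mul, eval_mul, z0, mul_zero]
  · have : U * P₀ = 1 - V * P₁ := by rw [← hUV]; ring
    rw [this, Polynomial.map_sub, Polynomial.map_one, Polynomial.map_mul, eval_sub, eval_one,
      eval_mul, z1, mul_zero, sub_zero]

end Fermat.Agent.S48.End
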